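import Mathlib

/-!
# The abstract node lemma: thickness of an ordinary double point

`R` is (the local ring at a node `s` of) a flat model over a discrete valuation ring with
uniformiser `ϖ`; the special fibre has two branches through `s`.  The data:

* `v₁ v₂ : R → ℕ∞`, the two valuations attached to the two components (`v_j ϖ = 1`);
* reducedness (saturation): `1 ≤ v₁ g → 1 ≤ v₂ g → ϖ ∣ g`;
* `o : R → ℕ∞`, the order at `s` of the reduction to the first component;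
* branch coordinates `x`, `y` (`x` vanishes on the second component, `y` on the first);
* a function `f` which is a unit off the special fibre: `f * f' = ϖ ^ n * unit`, `v₁ f = 0`,
  `v₂ f' = 0`.

Then there are `ξ ≡ x`, `η ≡ y` modulo `ϖ` and `k ≥ 1` with `ξ * η = ϖ ^ k * unit` and
`o f * k = n`; in particular the thickness `k` divides `n`.
-/

set_option linter.style.haveILetI false

namespace Fermat.Agent.TR.NodeIter

variable {R : Type*} [CommRing R]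

/-- One step of the iteration: if `ξ η = ϖ^j u` and `u = α ξ + α' η + ϖ γ`, then the corrected
coordinates have product divisible by `ϖ^(j+1)`. -/
theorem node_step (ϖ ξ η u α α' γ : R) (j : ℕ) (hj : 1 ≤ j)
    (h : ξ * η = ϖ ^ j * u) (hu : u = α * ξ + α' * η + ϖ * γ) :
    (ξ - ϖ ^ j * α') * (η - ϖ ^ j * α) = ϖ ^ (j + 1) * (γ + ϖ ^ (j - 1) * (α * α')) := by
  obtain ⟨i, rfl⟩ : ∃ i, j = i + 1 := ⟨j - 1, by omega⟩
  simp only [Nat.add_sub_cancel]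
  have e : (ξ - ϖ ^ (i + 1) * α') * (η - ϖ ^ (i + 1) * α) =
      ξ * η - ϖ ^ (i + 1) * (α * ξ + α' * η) + ϖ ^ (i + 1) * ϖ ^ (i + 1) * (α * α') := by ring
  rw [e, h, hu]
  ring

/-- **(I) The iteration.**  `P₁ g` / `P₂ g` say that `g` vanishes on the first / second
component.  If every non-unit is a sum of a function vanishing on the first component and one
vanishing on the second, `x` (resp. `y`) generates the functions vanishing on the second (resp.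
first) component modulo `ϖ`, `ϖ ∣ x * y`, and the exponent `j` in any relation
`ξ * η = ϖ ^ j * u` with `ξ ≡ x`, `η ≡ y` is bounded by `N`, then some such relation has `u` a
unit. -/
theorem exists_node_eq (ϖ x y : R) (P₁ P₂ : R → Prop) (N : ℕ)
    (hxy : ϖ ∣ x * y)
    (hx' : ∀ g, P₂ g → ∃ α β, g = α * x + β * ϖ)
    (hy' : ∀ g, P₁ g → ∃ α β, g = α * y + β * ϖ)
    (hm : ∀ g, ¬ IsUnit g → ∃ a b, P₁ a ∧ P₂ b ∧ g = a + b)
    (hB : ∀ ξ η u : R, ∀ j : ℕ, ϖ ∣ ξ - x → ϖ ∣ η - y → ξ * η = ϖ ^ j * u → j ≤ N) :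
    ∃ k : ℕ, 1 ≤ k ∧ k ≤ N ∧ ∃ ξ η u : R, ϖ ∣ ξ - x ∧ ϖ ∣ η - y ∧ IsUnit u ∧
      ξ * η = ϖ ^ k * u := by
  have key : ∀ d j : ℕ, 1 ≤ j → N < j + d → ∀ ξ η u : R, ϖ ∣ ξ - x → ϖ ∣ η - y →
      ξ * η = ϖ ^ j * u →
      ∃ k : ℕ, 1 ≤ k ∧ k ≤ N ∧ ∃ ξ η u : R, ϖ ∣ ξ - x ∧ ϖ ∣ η - y ∧ IsUnit u ∧
        ξ * η = ϖ ^ k * u := by
    intro d
    induction d with
    | zero =>
      intro j _ hN ξ η u hξ hη h
      have := hB ξ η u j hξ hη h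
      omega
    | succ d ih =>
      intro j hj hN ξ η u hξ hη h
      have hjN := hB ξ η u j hξ hη h
      by_cases hu : IsUnit u
      · exact ⟨j, hj, hjN, ξ, η, u, hξ, hη, hu, h⟩
      · obtain ⟨a, b, ha, hb, hab⟩ := hm u hu
        obtain ⟨α', β', ha'⟩ := hy' a ha
        obtain ⟨α, β, hb'⟩ := hx' b hb
        obtain ⟨c, hc⟩ := hξ
        obtain ⟨e, he⟩ := hη
        have hxe : x = ξ - ϖ * c := by rw [← hc]; ring
        have hye : y = η - ϖ * e := by rw [← he]; ring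
        have hu' : u = α * ξ + α' * η + ϖ * (β' - α' * e + β - α * c) := by
          rw [hab, ha', hb', hxe, hye]
          ring
        have hstep := node_step ϖ ξ η u α α' _ j hj h hu'
        refine ih (j + 1) (by omega) (by omega) _ _ _ ?_ ?_ hstep
        · obtain ⟨i, rfl⟩ : ∃ i, j = i + 1 := ⟨j - 1, by omega⟩
          refine ⟨c - ϖ ^ i * α', ?_⟩
          rw [hxe]
          ring
        · obtain ⟨i, rfl⟩ : ∃ i, j = i + 1 := ⟨j - 1, by omega⟩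
          refine ⟨e - ϖ ^ i * α, ?_⟩
          rw [hye]
          ring
  obtain ⟨u₁, hu₁⟩ := hxy
  refine key N 1 le_rfl (by omega) x y u₁ ?_ ?_ ?_
  · simp
  · simp
  · rw [hu₁, pow_one]

/-! ### Valuations with values in `ℕ∞` -/

section Val

variable (v : R → ℕ∞) (hmul : ∀ g h, v (g * h) = v g + v h)

include hmul

theorem v_pow (g : R) (h1 : v 1 = 0) (a : ℕ) : v (g ^ a) = a * v g := by
  induction a with
  | zero => simp [h1]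
  | succ a ih =>
    rw [pow_succ, hmul, ih, Nat.cast_add, Nat.cast_one, add_mul, one_mul]

theorem v_one_of (ϖ : R) (hϖ : v ϖ = 1) : v 1 = 0 := by
  have h := hmul ϖ 1
  rw [mul_one, hϖ] at h
  by_contra h0
  have h1 : 1 ≤ v 1 := Order.one_le_iff_pos.mpr (pos_iff_ne_zero.mpr h0)
  have h2 : (1 : ℕ∞) + 1 ≤ 1 + v 1 := by gcongr
  rw [← h] at h2
  exact absurd h2 (by decide)

theorem v_unit (ϖ : R) (hϖ : v ϖ = 1) {u : R} (hu : IsUnit u) : v u = 0 := by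
  obtain ⟨w, hw⟩ := hu.exists_right_inv
  have h := hmul u w
  rw [hw, v_one_of v hmul ϖ hϖ] at h
  exact (add_eq_zero.mp h.symm).1

end Val

/-- Iterated saturation: an element of valuation `≥ m` for both valuations is divisible by
`ϖ ^ m`, and the quotient has the expected valuations. -/
theorem exists_eq_pow_mul [IsDomain R] (ϖ : R) (v₁ v₂ : R → ℕ∞)
    (v₁_mul : ∀ g h, v₁ (g * h) = v₁ g + v₁ h) (v₂_mul : ∀ g h, v₂ (g * h) = v₂ g + v₂ h)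
    (v₁_ϖ : v₁ ϖ = 1) (v₂_ϖ : v₂ ϖ = 1)
    (hsat : ∀ g, 1 ≤ v₁ g → 1 ≤ v₂ g → ϖ ∣ g) :
    ∀ (m : ℕ) (g : R), (m : ℕ∞) ≤ v₁ g → (m : ℕ∞) ≤ v₂ g →
      ∃ g', g = ϖ ^ m * g' ∧ v₁ g = m + v₁ g' ∧ v₂ g = m + v₂ g' := by
  intro m
  induction m with
  | zero =>
    intro g _ _
    exact ⟨g, by simp, by simp, by simp⟩
  | succ m ih =>
    intro g h1 h2
    have h1' : (m : ℕ∞) ≤ v₁ g := le_trans (by exact_mod_cast Nat.le_succ m) h1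
    have h2' : (m : ℕ∞) ≤ v₂ g := le_trans (by exact_mod_cast Nat.le_succ m) h2
    obtain ⟨g', hg', e1, e2⟩ := ih g h1' h2'
    have k1 : 1 ≤ v₁ g' := by
      rw [e1, Nat.cast_add, Nat.cast_one] at h1
      exact (ENat.add_le_add_iff_left (ENat.natCast_ne_top m)).mp h1
    have k2 : 1 ≤ v₂ g' := by
      rw [e2, Nat.cast_add, Nat.cast_one] at h2
      exact (ENat.add_le_add_iff_left (ENat.natCast_ne_top m)).mp h2
    obtain ⟨g'', hg''⟩ := hsat g' k1 k2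
    refine ⟨g'', ?_, ?_, ?_⟩
    · rw [hg', hg'']
      ring
    · rw [e1, hg'', v₁_mul, v₁_ϖ, Nat.cast_add, Nat.cast_one, add_assoc]
    · rw [e2, hg'', v₂_mul, v₂_ϖ, Nat.cast_add, Nat.cast_one, add_assoc]

/-- **The comparison lemma.**  `F * F' = ϖ ^ N * unit` with `v₁ F = 0`, `v₂ F' = 0` (so `F` is
a unit off the special fibre and `v₂ F = N`); if `v₁ X = 0` and `v₂ X > N`, then `X / F` lies in
`R` and vanishes on the second component, hence at the node: `o F < o X`. -/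
theorem o_lt_of_v_lt [IsDomain R] (ϖ : R) (v₁ v₂ o : R → ℕ∞)
    (v₁_mul : ∀ g h, v₁ (g * h) = v₁ g + v₁ h) (v₂_mul : ∀ g h, v₂ (g * h) = v₂ g + v₂ h)
    (v₁_ϖ : v₁ ϖ = 1) (v₂_ϖ : v₂ ϖ = 1)
    (hsat : ∀ g, 1 ≤ v₁ g → 1 ≤ v₂ g → ϖ ∣ g)
    (o_mul : ∀ g h, o (g * h) = o g + o h) (o_one : o 1 = 0)
    (o_pos : ∀ g, 1 ≤ v₂ g → 1 ≤ o g)
    {N : ℕ} {F F' W X : R} (hFF' : F * F' = ϖ ^ N * W) (hW : IsUnit W)
    (hv₁F : v₁ F = 0) (hv₂F' : v₂ F' = 0) (hv₁X : v₁ X = 0) (hv₂X : ((N + 1 : ℕ) : ℕ∞) ≤ v₂ X) :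
    o F + 1 ≤ o X := by
  have hϖ0 : ϖ ≠ 0 := by
    rintro rfl
    have h := v₁_mul 0 0
    rw [mul_zero, v₁_ϖ] at h
    exact absurd h (by decide)
  have h11 : v₁ 1 = 0 := v_one_of v₁ v₁_mul ϖ v₁_ϖ
  have hv₁W : v₁ W = 0 := v_unit v₁ v₁_mul ϖ v₁_ϖ hW
  have hv₁F' : v₁ F' = N := by
    have h := v₁_mul F F'
    rw [hFF', v₁_mul, v_pow v₁ v₁_mul ϖ h11, v₁_ϖ, hv₁W, hv₁F, mul_one, add_zero, zero_add] at h
    exact h.symm
  have e1 : v₁ (X * F') = N := by rw [v₁_mul, hv₁X, hv₁F', zero_add]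
  have e2 : v₂ (X * F') = v₂ X := by rw [v₂_mul, hv₂F', add_zero]
  have hN2 : (N : ℕ∞) ≤ v₂ (X * F') := by
    rw [e2]
    exact le_trans (by exact_mod_cast Nat.le_succ N) hv₂X
  obtain ⟨g, hg, -, k2⟩ := exists_eq_pow_mul ϖ v₁ v₂ v₁_mul v₂_mul v₁_ϖ v₂_ϖ hsat N (X * F')
    (le_of_eq e1.symm) hN2
  have hv₂g : 1 ≤ v₂ g := by
    rw [e2] at k2
    rw [k2, Nat.cast_add, Nat.cast_one] at hv₂X
    exact (ENat.add_le_add_iff_left (ENat.natCast_ne_top N)).mp hv₂X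
  have hgF : g * F = X * W := by
    have h : ϖ ^ N * (g * F) = ϖ ^ N * (X * W) := by
      calc ϖ ^ N * (g * F) = (ϖ ^ N * g) * F := by ring
        _ = X * F' * F := by rw [← hg]
        _ = X * (F * F') := by ring
        _ = ϖ ^ N * (X * W) := by rw [hFF']; ring
    exact mul_left_cancel₀ (pow_ne_zero N hϖ0) h
  have hoW : o W = 0 := by
    obtain ⟨W', hW'⟩ := hW.exists_right_inv
    have h := o_mul W W'
    rw [hW', o_one] at h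
    exact (add_eq_zero.mp h.symm).1
  have h := o_mul g F
  rw [hgF, o_mul, hoW, add_zero] at h
  rw [h, add_comm]
  gcongr
  exact o_pos g hv₂g

/-- **The bound** (the half of the gluing argument that needs no hypothesis on the zeros of
`ξ`): a branch coordinate `ξ` (`o ξ = 1`, `v₁ ξ = 0`) has `v₂ ξ ≤ n`. -/
theorem v_le_of_o_eq_one [IsDomain R] (ϖ : R) (v₁ v₂ o : R → ℕ∞)
    (v₁_mul : ∀ g h, v₁ (g * h) = v₁ g + v₁ h) (v₂_mul : ∀ g h, v₂ (g * h) = v₂ g + v₂ h)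
    (v₁_ϖ : v₁ ϖ = 1) (v₂_ϖ : v₂ ϖ = 1)
    (hsat : ∀ g, 1 ≤ v₁ g → 1 ≤ v₂ g → ϖ ∣ g)
    (o_mul : ∀ g h, o (g * h) = o g + o h)
    (o_pos : ∀ g, 1 ≤ v₂ g → 1 ≤ o g)
    {n : ℕ} (hn : 1 ≤ n) {f f' w : R} (hff' : f * f' = ϖ ^ n * w) (hw : IsUnit w)
    (hv₁f : v₁ f = 0) (hv₂f' : v₂ f' = 0) (o_fin : o f ≠ ⊤)
    {ξ : R} (hoξ : o ξ = 1) (hv₁ξ : v₁ ξ = 0) {m : ℕ} (hm : (m : ℕ∞) ≤ v₂ ξ) : m ≤ n := by
  have o_one : o 1 = 0 := by
    have h := o_mul ξ 1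
    rw [mul_one, hoξ] at h
    by_contra h0
    have h1 : 1 ≤ o 1 := Order.one_le_iff_pos.mpr (pos_iff_ne_zero.mpr h0)
    have h2 : (1 : ℕ∞) + 1 ≤ 1 + o 1 := by gcongr
    rw [← h] at h2
    exact absurd h2 (by decide)
  have h11 : v₁ 1 = 0 := v_one_of v₁ v₁_mul ϖ v₁_ϖ
  have h21 : v₂ 1 = 0 := v_one_of v₂ v₂_mul ϖ v₂_ϖ
  have hv₂w : v₂ w = 0 := v_unit v₂ v₂_mul ϖ v₂_ϖ hw
  have hv₂f : v₂ f = n := by
    have h := v₂_mul f f'
    rw [hff', v₂_mul, v_pow v₂ v₂_mul ϖ h21, v₂_ϖ, hv₂w, hv₂f', mul_one, add_zero, add_zero] at h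
    exact h.symm
  obtain ⟨as, has⟩ := ENat.ne_top_iff_exists.mp o_fin
  have has1 : 1 ≤ as := by
    have h := o_pos f (by rw [hv₂f]; exact_mod_cast hn)
    rw [← has] at h
    exact_mod_cast h
  by_contra hlt
  push Not at hlt
  have hX1 : v₁ (ξ ^ as) = 0 := by rw [v_pow v₁ v₁_mul ξ h11, hv₁ξ, mul_zero]
  have hX2 : ((n + 1 : ℕ) : ℕ∞) ≤ v₂ (ξ ^ as) := by
    rw [v_pow v₂ v₂_mul ξ h21]
    calc ((n + 1 : ℕ) : ℕ∞) ≤ (m : ℕ∞) := by exact_mod_cast hlt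
      _ = 1 * (m : ℕ∞) := (one_mul _).symm
      _ ≤ (as : ℕ∞) * v₂ ξ := by
        gcongr
        exact_mod_cast has1
  have h := o_lt_of_v_lt ϖ v₁ v₂ o v₁_mul v₂_mul v₁_ϖ v₂_ϖ hsat o_mul o_one o_pos hff' hw hv₁f
    hv₂f' hX1 hX2
  rw [v_pow o o_mul ξ o_one, hoξ, mul_one, ← has] at h
  have h' : as + 1 ≤ as := by exact_mod_cast h
  omega

/-- **(II) The thickness formula.**  From the node equation `ξ * η = ϖ ^ k * unit` and a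
function `f` which is a unit off the special fibre with `v₁ f = 0`, `v₂ f = n`: the order at the
node of the reduction of `f` to the first component is `n / k`. -/
theorem o_mul_thickness [IsDomain R] (ϖ : R) (v₁ v₂ o : R → ℕ∞)
    (v₁_mul : ∀ g h, v₁ (g * h) = v₁ g + v₁ h) (v₂_mul : ∀ g h, v₂ (g * h) = v₂ g + v₂ h)
    (v₁_ϖ : v₁ ϖ = 1) (v₂_ϖ : v₂ ϖ = 1)
    (hsat : ∀ g, 1 ≤ v₁ g → 1 ≤ v₂ g → ϖ ∣ g)
    (o_mul : ∀ g h, o (g * h) = o g + o h)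
    (o_pos : ∀ g, 1 ≤ v₂ g → 1 ≤ o g)
    {k n : ℕ} (hk : 1 ≤ k) {ξ η u f f' w : R} (hξη : ξ * η = ϖ ^ k * u) (hu : IsUnit u)
    (hoξ : o ξ = 1) (hv₁ξ : v₁ ξ = 0) (hv₂η : v₂ η = 0)
    (hff' : f * f' = ϖ ^ n * w) (hw : IsUnit w) (hv₁f : v₁ f = 0) (hv₂f' : v₂ f' = 0)
    (o_fin : o f ≠ ⊤) :
    ∃ as : ℕ, o f = as ∧ as * k = n := by
  have o_one : o 1 = 0 := by
    have h := o_mul ξ 1
    rw [mul_one, hoξ] at h
    by_contra h0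
    have h1 : 1 ≤ o 1 := Order.one_le_iff_pos.mpr (pos_iff_ne_zero.mpr h0)
    have h2 : (1 : ℕ∞) + 1 ≤ 1 + o 1 := by gcongr
    rw [← h] at h2
    exact absurd h2 (by decide)
  have h11 : v₁ 1 = 0 := v_one_of v₁ v₁_mul ϖ v₁_ϖ
  have h21 : v₂ 1 = 0 := v_one_of v₂ v₂_mul ϖ v₂_ϖ
  have hv₂w : v₂ w = 0 := v_unit v₂ v₂_mul ϖ v₂_ϖ hw
  have hv₂f : v₂ f = n := by
    have h := v₂_mul f f'
    rw [hff', v₂_mul, v_pow v₂ v₂_mul ϖ h21, v₂_ϖ, hv₂w, hv₂f', mul_one, add_zero, add_zero] at h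
    exact h.symm
  have hv₂u : v₂ u = 0 := v_unit v₂ v₂_mul ϖ v₂_ϖ hu
  have hv₂ξ : v₂ ξ = k := by
    have h := v₂_mul ξ η
    rw [hξη, v₂_mul, v_pow v₂ v₂_mul ϖ h21, v₂_ϖ, hv₂u, hv₂η, mul_one, add_zero, add_zero] at h
    exact h.symm
  obtain ⟨as, has⟩ := ENat.ne_top_iff_exists.mp o_fin
  refine ⟨as, has.symm, ?_⟩
  -- `n b < a k → b as < a`
  have hA : ∀ a b : ℕ, n * b < a * k → b * as < a := by
    intro a b hab
    have hFF : f ^ b * f' ^ b = ϖ ^ (n * b) * w ^ b := by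
      rw [← mul_pow, hff', mul_pow, pow_mul]
    have hX1 : v₁ (ξ ^ a) = 0 := by rw [v_pow v₁ v₁_mul ξ h11, hv₁ξ, mul_zero]
    have hX2 : ((n * b + 1 : ℕ) : ℕ∞) ≤ v₂ (ξ ^ a) := by
      rw [v_pow v₂ v₂_mul ξ h21, hv₂ξ]
      exact_mod_cast hab
    have h := o_lt_of_v_lt ϖ v₁ v₂ o v₁_mul v₂_mul v₁_ϖ v₂_ϖ hsat o_mul o_one o_pos hFF
      (hw.pow b) (by rw [v_pow v₁ v₁_mul f h11, hv₁f, mul_zero])
      (by rw [v_pow v₂ v₂_mul f' h21, hv₂f', mul_zero]) hX1 hX2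
    rw [v_pow o o_mul ξ o_one, v_pow o o_mul f o_one, hoξ, mul_one, ← has] at h
    have h' : b * as + 1 ≤ a := by exact_mod_cast h
    omega
  -- `a k < n b → a < b as`
  have hB : ∀ a b : ℕ, a * k < n * b → a < b * as := by
    intro a b hab
    have hFF : ξ ^ a * η ^ a = ϖ ^ (k * a) * u ^ a := by
      rw [← mul_pow, hξη, mul_pow, pow_mul]
    have hX1 : v₁ (f ^ b) = 0 := by rw [v_pow v₁ v₁_mul f h11, hv₁f, mul_zero]
    have hX2 : ((k * a + 1 : ℕ) : ℕ∞) ≤ v₂ (f ^ b) := by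
      rw [v_pow v₂ v₂_mul f h21, hv₂f]
      have : k * a + 1 ≤ b * n := by
        have := hab
        nlinarith
      exact_mod_cast this
    have h := o_lt_of_v_lt ϖ v₁ v₂ o v₁_mul v₂_mul v₁_ϖ v₂_ϖ hsat o_mul o_one o_pos hFF
      (hu.pow a) (by rw [v_pow v₁ v₁_mul ξ h11, hv₁ξ, mul_zero])
      (by rw [v_pow v₂ v₂_mul η h21, hv₂η, mul_zero]) hX1 hX2
    rw [v_pow o o_mul ξ o_one, v_pow o o_mul f o_one, hoξ, mul_one, ← has] at h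
    have h' : a + 1 ≤ b * as := by exact_mod_cast h
    omega
  -- the squeeze
  rcases lt_trichotomy (as * k) n with hlt | heq | hgt
  · exfalso
    have h := hB (2 * k * as + 1) (2 * k) (by nlinarith)
    nlinarith
  · exact heq
  · exfalso
    have h1 : 1 ≤ as * k := by omega
    have has1 : 1 ≤ as := by
      rcases Nat.eq_zero_or_pos as with h0 | h0
      · rw [h0] at h1; omega
      · exact h0
    have h := hA (2 * k * as - 1) (2 * k) (by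
      have h2 : 2 * k * as - 1 + 1 = 2 * k * as := by
        have : 1 ≤ 2 * k * as := by nlinarith
        omega
      have h3 : n * (2 * k) + k < (2 * k * as - 1 + 1) * k := by
        rw [h2]
        nlinarith
      nlinarith)
    have h2 : 2 * k * as - 1 < 2 * k * as := by
      have : 1 ≤ 2 * k * as := by nlinarith
      omega
    omega

/-- A perturbation by a multiple of `ϖ` does not change valuation zero. -/
theorem v_eq_zero_of_dvd_sub (ϖ : R) (v : R → ℕ∞) (v_mul : ∀ g h, v (g * h) = v g + v h)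
    (v_ϖ : v ϖ = 1) (v_add : ∀ g h, min (v g) (v h) ≤ v (g + h))
    {x ξ : R} (hx : v x = 0) (h : ϖ ∣ ξ - x) : v ξ = 0 := by
  by_contra h0
  have h1 : 1 ≤ v ξ := Order.one_le_iff_pos.mpr (pos_iff_ne_zero.mpr h0)
  obtain ⟨c, hc⟩ := h
  have e : x = ξ + ϖ * (-c) := by
    have : ϖ * (-c) = -(ξ - x) := by rw [hc]; ring
    rw [this]; ring
  have h2 : 1 ≤ v (ϖ * (-c)) := by
    rw [v_mul, v_ϖ]
    exact le_self_add
  have h3 := v_add ξ (ϖ * (-c))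
  rw [← e, hx] at h3
  have h4 : (1 : ℕ∞) ≤ min (v ξ) (v (ϖ * (-c))) := le_min h1 h2
  exact absurd (le_trans h4 h3) (by decide)

/-- **(N), abstract form: the node equation and the thickness.**

`R` a domain, `ϖ ∈ R`; `v₁ v₂ : R → ℕ∞` the valuations of the two components (`v_j ϖ = 1`),
saturation `hsat`; `o` the order at the node of the reduction to the first component; branch
coordinates `x`, `y`; generation hypotheses `hx'`, `hy'`, `hm` (true in the local ring at the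
node); a function `f` with `f * f' = ϖ ^ n * unit`, `v₁ f = 0`, `v₂ f' = 0`.

Then there are `k ≥ 1`, `ξ ≡ x`, `η ≡ y` modulo `ϖ` and a unit `u` with `ξ * η = ϖ ^ k * u`,
and `o f * k = n`. -/
theorem exists_thickness [IsDomain R] (ϖ : R) (v₁ v₂ o : R → ℕ∞)
    (v₁_mul : ∀ g h, v₁ (g * h) = v₁ g + v₁ h) (v₂_mul : ∀ g h, v₂ (g * h) = v₂ g + v₂ h)
    (v₁_ϖ : v₁ ϖ = 1) (v₂_ϖ : v₂ ϖ = 1)
    (v₁_add : ∀ g h, min (v₁ g) (v₁ h) ≤ v₁ (g + h))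
    (v₂_add : ∀ g h, min (v₂ g) (v₂ h) ≤ v₂ (g + h))
    (hsat : ∀ g, 1 ≤ v₁ g → 1 ≤ v₂ g → ϖ ∣ g)
    (o_mul : ∀ g h, o (g * h) = o g + o h)
    (o_pos : ∀ g, 1 ≤ v₂ g → 1 ≤ o g)
    (o_congr : ∀ g h, 1 ≤ v₁ (g - h) → o g = o h)
    (x y : R) (hox : o x = 1) (hv₁x : v₁ x = 0) (hv₂x : 1 ≤ v₂ x) (hv₁y : 1 ≤ v₁ y)
    (hv₂y : v₂ y = 0)
    (hx' : ∀ g, 1 ≤ v₂ g → ∃ α β, g = α * x + β * ϖ)
    (hy' : ∀ g, 1 ≤ v₁ g → ∃ α β, g = α * y + β * ϖ)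
    (hm : ∀ g, ¬ IsUnit g → ∃ a b, 1 ≤ v₁ a ∧ 1 ≤ v₂ b ∧ g = a + b)
    {n : ℕ} (hn : 1 ≤ n) {f f' w : R} (hff' : f * f' = ϖ ^ n * w) (hw : IsUnit w)
    (hv₁f : v₁ f = 0) (hv₂f' : v₂ f' = 0) (o_fin : o f ≠ ⊤) :
    ∃ k : ℕ, 1 ≤ k ∧ k ≤ n ∧ ∃ ξ η u : R, ϖ ∣ ξ - x ∧ ϖ ∣ η - y ∧ IsUnit u ∧
      ξ * η = ϖ ^ k * u ∧ o ξ = 1 ∧ v₁ ξ = 0 ∧ v₂ ξ = k ∧ v₁ η = k ∧ v₂ η = 0 ∧
      ∃ as : ℕ, o f = as ∧ as * k = n := by
  have h11 : v₁ 1 = 0 := v_one_of v₁ v₁_mul ϖ v₁_ϖ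
  have h21 : v₂ 1 = 0 := v_one_of v₂ v₂_mul ϖ v₂_ϖ
  -- facts about perturbed coordinates
  have hoξ : ∀ ξ : R, ϖ ∣ ξ - x → o ξ = 1 := by
    intro ξ hξ
    rw [← hox]
    refine o_congr ξ x ?_
    obtain ⟨c, hc⟩ := hξ
    rw [hc, v₁_mul, v₁_ϖ]
    exact le_self_add
  have hv₁ξ : ∀ ξ : R, ϖ ∣ ξ - x → v₁ ξ = 0 := fun ξ hξ =>
    v_eq_zero_of_dvd_sub ϖ v₁ v₁_mul v₁_ϖ v₁_add hv₁x hξ
  have hv₂η : ∀ η : R, ϖ ∣ η - y → v₂ η = 0 := fun η hη =>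
    v_eq_zero_of_dvd_sub ϖ v₂ v₂_mul v₂_ϖ v₂_add hv₂y hη
  have hxy : ϖ ∣ x * y := by
    refine hsat _ ?_ ?_
    · rw [v₁_mul]
      exact le_trans hv₁y le_add_self
    · rw [v₂_mul]
      exact le_trans hv₂x le_self_add
  have hB : ∀ ξ η u : R, ∀ j : ℕ, ϖ ∣ ξ - x → ϖ ∣ η - y → ξ * η = ϖ ^ j * u → j ≤ n := by
    intro ξ η u j hξ hη h
    have hj : (j : ℕ∞) ≤ v₂ ξ := by
      have h2 := v₂_mul ξ η
      rw [h, v₂_mul, v_pow v₂ v₂_mul ϖ h21, v₂_ϖ, hv₂η η hη, mul_one, add_zero] at h2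
      rw [← h2]
      exact le_self_add
    exact v_le_of_o_eq_one ϖ v₁ v₂ o v₁_mul v₂_mul v₁_ϖ v₂_ϖ hsat o_mul o_pos hn hff' hw hv₁f
      hv₂f' o_fin (hoξ ξ hξ) (hv₁ξ ξ hξ) hj
  obtain ⟨k, hk, hkn, ξ, η, u, hξ, hη, hu, h⟩ :=
    exists_node_eq ϖ x y (fun g => 1 ≤ v₁ g) (fun g => 1 ≤ v₂ g) n hxy hx' hy' hm hB
  have hv₂u : v₂ u = 0 := v_unit v₂ v₂_mul ϖ v₂_ϖ hu
  have hv₁u : v₁ u = 0 := v_unit v₁ v₁_mul ϖ v₁_ϖ hu
  have e2 : v₂ ξ = k := by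
    have h2 := v₂_mul ξ η
    rw [h, v₂_mul, v_pow v₂ v₂_mul ϖ h21, v₂_ϖ, hv₂u, hv₂η η hη, mul_one, add_zero,
      add_zero] at h2
    exact h2.symm
  have e1 : v₁ η = k := by
    have h1 := v₁_mul ξ η
    rw [h, v₁_mul, v_pow v₁ v₁_mul ϖ h11, v₁_ϖ, hv₁u, hv₁ξ ξ hξ, mul_one, add_zero,
      zero_add] at h1
    exact h1.symm
  exact ⟨k, hk, hkn, ξ, η, u, hξ, hη, hu, h, hoξ ξ hξ, hv₁ξ ξ hξ, e2, e1, hv₂η η hη,
    o_mul_thickness ϖ v₁ v₂ o v₁_mul v₂_mul v₁_ϖ v₂_ϖ hsat o_mul o_pos hk h hu (hoξ ξ hξ)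
      (hv₁ξ ξ hξ) (hv₂η η hη) hff' hw hv₁f hv₂f' o_fin⟩

end Fermat.Agent.TR.NodeIter
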