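import Mathlib
import Fermat.Agent.TR.NodeIter
import Fermat.Agent.CAR.Formal.DiscVal

/-!
# The abstract node lemma in membership form (no discreteness of the two valuations)

`F` any field, `O₁ O₂ : ValuationSubring F` ARBITRARY valuation subrings (no uniformiser, no
rank hypothesis), `S ≤ O₁ ⊓ O₂` a subring (the local ring of the model at the node), `p ∈ S` a
non-unit of both.  The only hypotheses linking `S` to the valuation rings are

* `hsat` : `g ∈ O₁ → g ∈ O₂ → p ^ n * g ∈ S → g ∈ S`   (saturation),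
* `hred` : `g ∈ S → g ∈ 𝔪(O₁) → g ∈ 𝔪(O₂) → g / p ∈ S`   (reducedness).

`ρ : S →+* κ` is the reduction to the first component, with values in a discrete valuation
subring `Vs` of `κ` (the local ring of that component at the node), and `hglue` says that a
function vanishing on the second component vanishes at the node.

`exists_thickness_mem` : node equation `ξ * η = p ^ k * unit` with `ξ / p ^ k ∈ O₂ˣ`,
`η / p ^ k ∈ O₁ˣ`, and `ord_s (ρ f) * k = c` for every `f` with `f * f' = p ^ c`, `f ∈ O₁ˣ`,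
`f' ∈ O₂ˣ`.
-/

set_option linter.style.haveILetI false

namespace Fermat.Agent.TR.NodeMem

open Fermat.Agent.CAR.Formal

variable {F : Type*} [Field F]

section VS

variable (A : ValuationSubring F)

theorem mul_mem_nonunits {x y : F} (hx : x ∈ A) (hy : y ∈ A.nonunits) : x * y ∈ A.nonunits := by
  rw [ValuationSubring.mem_nonunits_iff] at hy ⊢
  rw [map_mul]
  have h1 : A.valuation x ≤ 1 := (A.valuation_le_one_iff x).mpr hx
  calc A.valuation x * A.valuation y ≤ 1 * A.valuation y := mul_le_mul_left h1 _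
    _ = A.valuation y := one_mul _
    _ < 1 := hy

theorem inv_mem_of_notMem {x : F} (h : x ∉ A.nonunits) : x⁻¹ ∈ A ∧ x ≠ 0 := by
  rw [ValuationSubring.mem_nonunits_iff_or] at h
  push Not at h
  exact ⟨h.2, h.1⟩

theorem notMem_nonunits_of_inv {x : F} (hx0 : x ≠ 0) (h : x⁻¹ ∈ A) : x ∉ A.nonunits := by
  rw [ValuationSubring.mem_nonunits_iff_or]
  push Not
  exact ⟨hx0, h⟩

theorem pow_mem_nonunits {p : F} (hp : p ∈ A.nonunits) {n : ℕ} (hn : 1 ≤ n) :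
    p ^ n ∈ A.nonunits := by
  obtain ⟨m, rfl⟩ : ∃ m, n = m + 1 := ⟨n - 1, by omega⟩
  rw [pow_succ]
  exact mul_mem_nonunits A (pow_mem (A.nonunits_subset hp) m) hp

end VS

/-- **The comparison lemma (membership form).**  If `F₀` is a unit of `O₁`, the quotient
`X / F₀` is a non-unit of `O₂` and lies in `S[1/p]`, then it lies in `S` and vanishes at the
node, so `ord (ρ F₀) < ord (ρ X)`. -/
theorem ord_lt_of_div_mem {O₁ O₂ : ValuationSubring F} (S : Subring F) {p : F}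
    (hS₁ : ∀ g ∈ S, g ∈ O₁)
    (hsat : ∀ g : F, g ∈ O₁ → g ∈ O₂ → ∀ n : ℕ, p ^ n * g ∈ S → g ∈ S)
    {κ : Type*} [Field κ] {Vs : ValuationSubring κ} {t : κ} (hV : IsUnif Vs t)
    (ρ : S →+* κ)
    (hglue : ∀ g : S, (g : F) ∈ O₂.nonunits → ρ g ∈ Vs.nonunits)
    (X F₀ : S) (hF₀ : (F₀ : F) ∉ O₁.nonunits) (hq : (X : F) / F₀ ∈ O₂.nonunits) (n : ℕ)
    (hn : p ^ n * ((X : F) / F₀) ∈ S) (hX : ρ X ≠ 0) :
    hV.ord (ρ F₀) + 1 ≤ hV.ord (ρ X) := by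
  obtain ⟨hinv, hF0⟩ := inv_mem_of_notMem O₁ hF₀
  have hg₁ : (X : F) / F₀ ∈ O₁ := by
    rw [div_eq_mul_inv]
    exact O₁.mul_mem _ _ (hS₁ _ X.2) hinv
  have hgS : (X : F) / F₀ ∈ S := hsat _ hg₁ (O₂.nonunits_subset hq) n hn
  have hmul : (⟨(X : F) / F₀, hgS⟩ : S) * F₀ = X := by
    apply Subtype.ext
    show (X : F) / F₀ * F₀ = X
    exact div_mul_cancel₀ _ hF0
  have hρ : ρ ⟨(X : F) / F₀, hgS⟩ * ρ F₀ = ρ X := by rw [← map_mul, hmul]
  have hg0 : ρ ⟨(X : F) / F₀, hgS⟩ ≠ 0 := by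
    intro h0
    rw [h0, zero_mul] at hρ
    exact hX hρ.symm
  have hF0' : ρ F₀ ≠ 0 := by
    intro h0
    rw [h0, mul_zero] at hρ
    exact hX hρ.symm
  have h1 : 0 < hV.ord (ρ ⟨(X : F) / F₀, hgS⟩) := (hV.ord_pos_iff hg0).mpr (hglue _ hq)
  have h2 := hV.ord_mul hg0 hF0'
  rw [hρ] at h2
  omega

/-- **(N), abstract, membership form.**  See the module docstring. -/
theorem exists_thickness_mem {O₁ O₂ : ValuationSubring F} (S : Subring F) {p : F}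
    (hS₁ : ∀ g ∈ S, g ∈ O₁) (hS₂ : ∀ g ∈ S, g ∈ O₂) (hpS : p ∈ S) (hp0 : p ≠ 0)
    (hp₁ : p ∈ O₁.nonunits) (hp₂ : p ∈ O₂.nonunits)
    (hsat : ∀ g : F, g ∈ O₁ → g ∈ O₂ → ∀ n : ℕ, p ^ n * g ∈ S → g ∈ S)
    (hred : ∀ g ∈ S, g ∈ O₁.nonunits → g ∈ O₂.nonunits → g / p ∈ S)
    {κ : Type*} [Field κ] {Vs : ValuationSubring κ} {t : κ} (hV : IsUnif Vs t)
    (ρ : S →+* κ) (hρ0 : ∀ g : S, ρ g = 0 ↔ (g : F) ∈ O₁.nonunits)
    (hglue : ∀ g : S, (g : F) ∈ O₂.nonunits → ρ g ∈ Vs.nonunits)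
    (x y : S) (hx₂ : (x : F) ∈ O₂.nonunits) (hxo : hV.ord (ρ x) = 1)
    (hy₁ : (y : F) ∈ O₁.nonunits) (hy₂ : (y : F) ∉ O₂.nonunits)
    (hgen : ∀ g : S, ¬ IsUnit g → ∃ α β γ : S, g = α * x + β * y + γ * ⟨p, hpS⟩)
    {c : ℕ} (hc : 1 ≤ c) (f f' : S) (hff' : (f : F) * f' = p ^ c)
    (hf₁ : (f : F) ∉ O₁.nonunits) (hf'₂ : (f' : F) ∉ O₂.nonunits) :
    ∃ k : ℕ, 1 ≤ k ∧ k ≤ c ∧ ∃ ξ η u : S,
      (∃ r : S, ξ = x + ⟨p, hpS⟩ * r) ∧ (∃ r : S, η = y + ⟨p, hpS⟩ * r) ∧ IsUnit u ∧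
      ξ * η = ⟨p, hpS⟩ ^ k * u ∧ ρ ξ = ρ x ∧
      (ξ : F) / p ^ k ∈ O₂ ∧ p ^ k / (ξ : F) ∈ O₂ ∧
      (η : F) / p ^ k ∈ O₁ ∧ p ^ k / (η : F) ∈ O₁ ∧
      hV.ord (ρ f) * k = c := by
  set ϖ : S := ⟨p, hpS⟩ with hϖ
  have m₁ : ∀ g : S, (g : F) ∈ O₁ := fun g => hS₁ _ g.2
  have m₂ : ∀ g : S, (g : F) ∈ O₂ := fun g => hS₂ _ g.2
  -- units of `S` are units of `O₁`, `O₂`
  have unit₁ : ∀ g : S, IsUnit g → (g : F) ∉ O₁.nonunits := by
    intro g hg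
    obtain ⟨g', hg'⟩ := hg.exists_right_inv
    have e : (g : F) * g' = 1 := congrArg Subtype.val hg'
    have hg0 : (g : F) ≠ 0 := left_ne_zero_of_mul_eq_one e
    refine notMem_nonunits_of_inv O₁ hg0 ?_
    rw [← eq_inv_of_mul_eq_one_right e]
    exact m₁ g'
  have unit₂ : ∀ g : S, IsUnit g → (g : F) ∉ O₂.nonunits := by
    intro g hg
    obtain ⟨g', hg'⟩ := hg.exists_right_inv
    have e : (g : F) * g' = 1 := congrArg Subtype.val hg'
    have hg0 : (g : F) ≠ 0 := left_ne_zero_of_mul_eq_one e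
    refine notMem_nonunits_of_inv O₂ hg0 ?_
    rw [← eq_inv_of_mul_eq_one_right e]
    exact m₂ g'
  have hρϖ : ρ ϖ = 0 := (hρ0 ϖ).mpr hp₁
  have hρx : ρ x ≠ 0 := by
    intro h0
    rw [h0, IsUnif.ord_zero] at hxo
    exact absurd hxo (by decide)
  have hρf : ρ f ≠ 0 := fun h0 => hf₁ ((hρ0 f).mp h0)
  have hf0 : (f : F) ≠ 0 := by
    intro h0
    rw [h0, zero_mul] at hff'
    exact pow_ne_zero c hp0 hff'.symm
  have hf'0 : (f' : F) ≠ 0 := by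
    intro h0
    rw [h0, mul_zero] at hff'
    exact pow_ne_zero c hp0 hff'.symm
  -- reducedness in `S`
  have hdvd : ∀ g : S, (g : F) ∈ O₁.nonunits → (g : F) ∈ O₂.nonunits → ϖ ∣ g := by
    intro g h1 h2
    refine ⟨⟨(g : F) / p, hred _ g.2 h1 h2⟩, Subtype.ext ?_⟩
    show (g : F) = p * ((g : F) / p)
    rw [mul_div_cancel₀ _ hp0]
  -- the split form of the generation hypothesis
  have hx' : ∀ g : S, (g : F) ∈ O₂.nonunits → ∃ α β : S, g = α * x + β * ϖ := by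
    intro g hg
    obtain ⟨α, β, γ, e⟩ := hgen g fun hu => unit₂ g hu hg
    have h1 : ((β * y : S) : F) ∈ O₁.nonunits := mul_mem_nonunits O₁ (m₁ β) hy₁
    have h2 : ((β * y : S) : F) ∈ O₂.nonunits := by
      have e' : β * y = g - α * x - γ * ϖ := by rw [e]; ring
      rw [e']
      exact sub_mem (sub_mem hg (mul_mem_nonunits O₂ (m₂ α) hx₂))
        (mul_mem_nonunits O₂ (m₂ γ) hp₂)
    obtain ⟨d, hd⟩ := hdvd _ h1 h2
    exact ⟨α, d + γ, by rw [e, hd]; ring⟩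
  have hy' : ∀ g : S, (g : F) ∈ O₁.nonunits → ∃ α β : S, g = α * y + β * ϖ := by
    intro g hg
    obtain ⟨α, β, γ, e⟩ := hgen g fun hu => unit₁ g hu hg
    have h2 : ((α * x : S) : F) ∈ O₂.nonunits := mul_mem_nonunits O₂ (m₂ α) hx₂
    have h1 : ((α * x : S) : F) ∈ O₁.nonunits := by
      have e' : α * x = g - β * y - γ * ϖ := by rw [e]; ring
      rw [e']
      exact sub_mem (sub_mem hg (mul_mem_nonunits O₁ (m₁ β) hy₁))
        (mul_mem_nonunits O₁ (m₁ γ) hp₁)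
    obtain ⟨d, hd⟩ := hdvd _ h1 h2
    exact ⟨β, d + γ, by rw [e, hd]; ring⟩
  have hm : ∀ g : S, ¬ IsUnit g →
      ∃ a b : S, (a : F) ∈ O₁.nonunits ∧ (b : F) ∈ O₂.nonunits ∧ g = a + b := by
    intro g hg
    obtain ⟨α, β, γ, e⟩ := hgen g hg
    refine ⟨β * y + γ * ϖ, α * x, ?_, mul_mem_nonunits O₂ (m₂ α) hx₂, by rw [e]; ring⟩
    exact add_mem (mul_mem_nonunits O₁ (m₁ β) hy₁) (mul_mem_nonunits O₁ (m₁ γ) hp₁)
  have hxy : ϖ ∣ x * y := by
    refine hdvd _ (mul_mem_nonunits O₁ (m₁ x) hy₁) ?_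
    rw [mul_comm]
    exact mul_mem_nonunits O₂ (m₂ y) hx₂
  -- perturbed coordinates
  have hρξ : ∀ ξ : S, ϖ ∣ ξ - x → ρ ξ = ρ x := by
    rintro ξ ⟨r, hr⟩
    have h0 : ρ (ξ - x) = 0 := by rw [hr, map_mul, hρϖ, zero_mul]
    rwa [map_sub, sub_eq_zero] at h0
  have hξ₁ : ∀ ξ : S, ϖ ∣ ξ - x → (ξ : F) ∉ O₁.nonunits := fun ξ h hmem =>
    hρx (by rw [← hρξ ξ h]; exact (hρ0 ξ).mpr hmem)
  have hη₂ : ∀ η : S, ϖ ∣ η - y → (η : F) ∉ O₂.nonunits := by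
    rintro η ⟨r, hr⟩ hη
    apply hy₂
    have e' : y = η - r * ϖ := by rw [mul_comm, ← hr]; ring
    rw [e']
    exact sub_mem hη (mul_mem_nonunits O₂ (m₂ r) hp₂)
  -- the order of `ρ f`
  have hf₂ : (f : F) ∈ O₂.nonunits := by
    have e' : (f : F) = (f' : F)⁻¹ * p ^ c := by
      rw [← hff']
      field_simp
    rw [e']
    exact mul_mem_nonunits O₂ (inv_mem_of_notMem O₂ hf'₂).1 (pow_mem_nonunits O₂ hp₂ hc)
  have has0 : 0 < hV.ord (ρ f) := (hV.ord_pos_iff hρf).mpr (hglue f hf₂)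
  obtain ⟨as, has⟩ : ∃ as : ℕ, hV.ord (ρ f) = as := ⟨(hV.ord (ρ f)).toNat, by omega⟩
  have has1 : 1 ≤ as := by omega
  have hffb : ∀ b : ℕ, (f : F) ^ b * (f' : F) ^ b = p ^ (c * b) := by
    intro b
    rw [← mul_pow, hff', ← pow_mul]
  -- first comparison: `c b < j a → b as < a` for `ξ ≡ x` with `ξ / p ^ j ∈ O₂`
  have cmp₁ : ∀ (ξ : S) (j a b : ℕ), (ξ : F) / p ^ j ∈ O₂ → ρ ξ = ρ x → c * b < j * a →
      b * as + 1 ≤ a := by
    intro ξ j a b hξj hρξx hlt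
    obtain ⟨d, hd⟩ : ∃ d, j * a = c * b + (d + 1) := ⟨j * a - c * b - 1, by omega⟩
    have hfb0 : (f : F) ^ b ≠ 0 := pow_ne_zero _ hf0
    have e : (ξ : F) ^ a / (f : F) ^ b = ((ξ : F) / p ^ j) ^ a * (f' : F) ^ b * p ^ (d + 1) := by
      have hp1 : p ^ (j * a) = p ^ (c * b) * p ^ (d + 1) := by rw [hd, pow_add]
      rw [div_pow, ← pow_mul, hp1, ← hffb b]
      have hp2 : p ^ (d + 1) ≠ 0 := pow_ne_zero _ hp0
      have hf'b0 : (f' : F) ^ b ≠ 0 := pow_ne_zero _ hf'0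
      field_simp
    have hq : ((ξ ^ a : S) : F) / ((f ^ b : S) : F) ∈ O₂.nonunits := by
      show (ξ : F) ^ a / (f : F) ^ b ∈ O₂.nonunits
      rw [e]
      exact mul_mem_nonunits O₂ (O₂.mul_mem _ _ (pow_mem hξj a) (pow_mem (m₂ f') b))
        (pow_mem_nonunits O₂ hp₂ (by omega))
    have hn : p ^ (c * b) * (((ξ ^ a : S) : F) / ((f ^ b : S) : F)) ∈ S := by
      have e2 : p ^ (c * b) * (((ξ ^ a : S) : F) / ((f ^ b : S) : F)) =
          ((ξ ^ a * f' ^ b : S) : F) := by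
        show p ^ (c * b) * ((ξ : F) ^ a / (f : F) ^ b) = (ξ : F) ^ a * (f' : F) ^ b
        rw [← hffb b]
        field_simp
      rw [e2]
      exact (ξ ^ a * f' ^ b).2
    have hfb₁ : ((f ^ b : S) : F) ∉ O₁.nonunits := by
      refine notMem_nonunits_of_inv O₁ hfb0 ?_
      show ((f : F) ^ b)⁻¹ ∈ O₁
      rw [← inv_pow]
      exact pow_mem (inv_mem_of_notMem O₁ hf₁).1 b
    have hX : ρ (ξ ^ a) ≠ 0 := by
      rw [map_pow, hρξx]
      exact pow_ne_zero _ hρx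
    have h := ord_lt_of_div_mem S hS₁ hsat hV ρ hglue (ξ ^ a) (f ^ b) hfb₁ hq (c * b) hn hX
    rw [map_pow, map_pow, hV.ord_pow, hV.ord_pow, hρξx, hxo, has] at h
    have h' : (b : ℤ) * as + 1 ≤ a := by simpa using h
    exact_mod_cast h'
  -- the bound
  have hB : ∀ ξ η u : S, ∀ j : ℕ, ϖ ∣ ξ - x → ϖ ∣ η - y → ξ * η = ϖ ^ j * u → j ≤ c := by
    intro ξ η u j hξ hη h
    obtain ⟨hηinv, hη0⟩ := inv_mem_of_notMem O₂ (hη₂ η hη)
    have hξj : (ξ : F) / p ^ j ∈ O₂ := by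
      have e : (ξ : F) / p ^ j = u * (η : F)⁻¹ := by
        have h' : (ξ : F) * η = p ^ j * u := congrArg Subtype.val h
        have hpj : p ^ j ≠ 0 := pow_ne_zero _ hp0
        rw [div_eq_iff hpj, eq_comm]
        calc (u : F) * (η : F)⁻¹ * p ^ j = (p ^ j * u) * (η : F)⁻¹ := by ring
          _ = (ξ : F) * η * (η : F)⁻¹ := by rw [h']
          _ = ξ := by field_simp
      rw [e]
      exact O₂.mul_mem _ _ (m₂ u) hηinv
    by_contra hlt
    push Not at hlt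
    have h1 := cmp₁ ξ j as 1 hξj (hρξ ξ hξ) (by nlinarith)
    omega
  obtain ⟨k, hk, hkc, ξ, η, u, hξ, hη, hu, h⟩ :=
    NodeIter.exists_node_eq ϖ x y (fun g => (g : F) ∈ O₁.nonunits)
      (fun g => (g : F) ∈ O₂.nonunits) c hxy hx' hy' hm hB
  obtain ⟨u', huu'⟩ := hu.exists_right_inv
  have huu'F : (u : F) * u' = 1 := congrArg Subtype.val huu'
  have hu0 : (u : F) ≠ 0 := left_ne_zero_of_mul_eq_one huu'F
  have hF : (ξ : F) * η = p ^ k * u := congrArg Subtype.val h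
  have hpk : p ^ k ≠ 0 := pow_ne_zero _ hp0
  obtain ⟨hηinv, hη0⟩ := inv_mem_of_notMem O₂ (hη₂ η hη)
  obtain ⟨hξinv, hξ0⟩ := inv_mem_of_notMem O₁ (hξ₁ ξ hξ)
  have e1 : (ξ : F) / p ^ k = u * (η : F)⁻¹ := by
    rw [div_eq_iff hpk, eq_comm]
    calc (u : F) * (η : F)⁻¹ * p ^ k = (p ^ k * u) * (η : F)⁻¹ := by ring
      _ = (ξ : F) * η * (η : F)⁻¹ := by rw [hF]
      _ = ξ := by field_simp
  have e2 : p ^ k / (ξ : F) = η * u' := by
    rw [div_eq_iff hξ0]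
    calc p ^ k = p ^ k * ((u : F) * u') := by rw [huu'F, mul_one]
      _ = (p ^ k * u) * u' := by ring
      _ = (ξ : F) * η * u' := by rw [hF]
      _ = η * u' * ξ := by ring
  have e3 : (η : F) / p ^ k = u * (ξ : F)⁻¹ := by
    rw [div_eq_iff hpk, eq_comm]
    calc (u : F) * (ξ : F)⁻¹ * p ^ k = (p ^ k * u) * (ξ : F)⁻¹ := by ring
      _ = (ξ : F) * η * (ξ : F)⁻¹ := by rw [hF]
      _ = η := by field_simp
  have e4 : p ^ k / (η : F) = ξ * u' := by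
    rw [div_eq_iff hη0]
    calc p ^ k = p ^ k * ((u : F) * u') := by rw [huu'F, mul_one]
      _ = (p ^ k * u) * u' := by ring
      _ = (ξ : F) * η * u' := by rw [hF]
      _ = ξ * u' * η := by ring
  have hξk : (ξ : F) / p ^ k ∈ O₂ := by rw [e1]; exact O₂.mul_mem _ _ (m₂ u) hηinv
  have hkξ : p ^ k / (ξ : F) ∈ O₂ := by rw [e2]; exact O₂.mul_mem _ _ (m₂ η) (m₂ u')
  have hηk : (η : F) / p ^ k ∈ O₁ := by rw [e3]; exact O₁.mul_mem _ _ (m₁ u) hξinv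
  have hkη : p ^ k / (η : F) ∈ O₁ := by rw [e4]; exact O₁.mul_mem _ _ (m₁ ξ) (m₁ u')
  refine ⟨k, hk, hkc, ξ, η, u, ?_, ?_, hu, h, hρξ ξ hξ, hξk, hkξ, hηk, hkη, ?_⟩
  · obtain ⟨r, hr⟩ := hξ
    exact ⟨r, by rw [← hr]; ring⟩
  · obtain ⟨r, hr⟩ := hη
    exact ⟨r, by rw [← hr]; ring⟩
  -- second comparison: `k a < c b → a < b as`
  have cmp₂ : ∀ a b : ℕ, k * a < c * b → a + 1 ≤ b * as := by
    intro a b hlt
    obtain ⟨d, hd⟩ : ∃ d, c * b = k * a + (d + 1) := ⟨c * b - k * a - 1, by omega⟩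
    have hξa0 : (ξ : F) ^ a ≠ 0 := pow_ne_zero _ hξ0
    have e : (f : F) ^ b / (ξ : F) ^ a =
        ((f' : F)⁻¹) ^ b * (p ^ k / (ξ : F)) ^ a * p ^ (d + 1) := by
      have hp1 : p ^ (c * b) = p ^ (k * a) * p ^ (d + 1) := by rw [hd, pow_add]
      have hfb : (f : F) ^ b = p ^ (c * b) * ((f' : F)⁻¹) ^ b := by
        rw [← hffb b, inv_pow]
        have hf'b0 : (f' : F) ^ b ≠ 0 := pow_ne_zero _ hf'0
        field_simp
      rw [hfb, hp1, div_pow, ← pow_mul]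
      field_simp
    have hq : ((f ^ b : S) : F) / ((ξ ^ a : S) : F) ∈ O₂.nonunits := by
      show (f : F) ^ b / (ξ : F) ^ a ∈ O₂.nonunits
      rw [e]
      exact mul_mem_nonunits O₂ (O₂.mul_mem _ _ (pow_mem (inv_mem_of_notMem O₂ hf'₂).1 b)
        (pow_mem hkξ a)) (pow_mem_nonunits O₂ hp₂ (by omega))
    have hn : p ^ (k * a) * (((f ^ b : S) : F) / ((ξ ^ a : S) : F)) ∈ S := by
      have e5 : p ^ (k * a) * (((f ^ b : S) : F) / ((ξ ^ a : S) : F)) =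
          ((f ^ b * (η * u') ^ a : S) : F) := by
        show p ^ (k * a) * ((f : F) ^ b / (ξ : F) ^ a) = (f : F) ^ b * ((η : F) * u') ^ a
        rw [← e2, div_pow, ← pow_mul]
        field_simp
      rw [e5]
      exact (f ^ b * (η * u') ^ a).2
    have hξa₁ : ((ξ ^ a : S) : F) ∉ O₁.nonunits := by
      refine notMem_nonunits_of_inv O₁ hξa0 ?_
      show ((ξ : F) ^ a)⁻¹ ∈ O₁
      rw [← inv_pow]
      exact pow_mem hξinv a
    have hX : ρ (f ^ b) ≠ 0 := by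
      rw [map_pow]
      exact pow_ne_zero _ hρf
    have h := ord_lt_of_div_mem S hS₁ hsat hV ρ hglue (f ^ b) (ξ ^ a) hξa₁ hq (k * a) hn hX
    rw [map_pow, map_pow, hV.ord_pow, hV.ord_pow, hρξ ξ hξ, hxo, has] at h
    have h' : (a : ℤ) + 1 ≤ b * as := by simpa using h
    exact_mod_cast h'
  -- the squeeze
  rw [has]
  have hgoal : as * k = c := by
    rcases lt_trichotomy (as * k) c with hlt | heq | hgt
    · exfalso
      have h1 := cmp₂ (2 * k * as + 1) (2 * k) (by nlinarith)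
      nlinarith
    · exact heq
    · exfalso
      have h2 : 2 * k * as - 1 + 1 = 2 * k * as := by
        have : 1 ≤ 2 * k * as := by nlinarith
        omega
      have h1 := cmp₁ ξ k (2 * k * as - 1) (2 * k) hξk (hρξ ξ hξ) (by
        have h3 : c * (2 * k) + k < k * (2 * k * as - 1 + 1) := by
          rw [h2]
          nlinarith
        nlinarith)
      omega
  exact_mod_cast hgoal

end Fermat.Agent.TR.NodeMem
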